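/-
Row 38, WALL-p, leaf **RES** of `Ribet/H884/SlopeSpec.lean` (helper939):
the residue field of a valuation subring of `ℚ̄` over `p` is algebraically closed of
characteristic `p`.

`resField : H884.ResFieldStatement`.
-/
import Fermat.Agent.Ribet.H884.SlopeSpec
import Fermat.Agent.S18.H905.Residue

set_option autoImplicit false

namespace Fermat.Agent.Ribet.H939

open Fermat.Agent.Ribet.H884

/-- Leaf **RES**. -/
theorem resField : ResFieldStatement := by
  intro p hp A hA
  refine ⟨Fermat.Agent.S18.H905.isAlgClosed_residueField A, ?_⟩
  rw [CharP.charP_iff_prime_eq_zero hp]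
  exact Fermat.Agent.S18.H905.natCast_residue_eq_zero A hA

end Fermat.Agent.Ribet.H939
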