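import Fermat.Agent.Ribet.H132.CoverNode

/-!
# RIBET wall-p, (S4) CORE-OUT WILD: cover node ring at a GIVEN maximal ideal (helper939)

Ask (a) of helper704 (#9417).  `H132.exists_nodeRing_of_etale` chooses a maximal ideal of
`A = R[Y]`; the WILD plan needs the node ring `R' = A2.H348.locAt A 𝔫` for a GIVEN maximal ideal
`𝔫` (so that `𝔫₁ = 𝔫₂ ∩ R₁[Y]` and `R' ⊆ R''` for two levels `E₁ ⊆ E₂`).

* `isLocalRing_locAt`, `mem_maximalIdeal_locAt_iff` : `locAt A 𝔫` is local with maximal ideal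
  `𝔫 A_𝔫` (any prime `𝔫` of any subalgebra of a field).
* `nodeRing_locAt` : the étale node ring theorem at a GIVEN maximal ideal `𝔫` of `R[Y]`
  (same proof as `H132.exists_nodeRing_of_etale`), with two extra conclusions: the structure map
  `R → R'` is local and the residue field of `R'` is that of `R`.
* `exists_nodeRing_of_etale_at` : the same in the `∃ R'` shape of helper132, plus `R' = locAt A 𝔫`.
* functoriality in the level: `locAt_map_le`, `isMaximal_comap_of_local` (`𝔫₁ = 𝔫₂ ∩ R₁[Y]` is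
  maximal and `φ (R'₁) ⊆ R'₂`).

Mathlib + `A2.H348.SubLoc` + `H600.EtaleNode` + `H132.CoverNode`; sorry-free.
-/

set_option autoImplicit false
set_option linter.unusedSectionVars false
set_option linter.style.haveILetI false

open Polynomial

namespace Fermat.Agent.Ribet.H939

open Fermat.Agent.Ribet.H704

section Local

variable {R L : Type*} [CommRing R] [Field L] [Algebra R L]

/-- `locAt A 𝔫` is a local ring (any prime `𝔫` of a subalgebra of a field). -/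
theorem isLocalRing_locAt (A : Subalgebra R L) (𝔫 : Ideal A) [h𝔫 : 𝔫.IsPrime] :
    IsLocalRing (Fermat.Agent.A2.H348.locAt A 𝔫) := by
  letI : Algebra A (Fermat.Agent.A2.H348.locAt A 𝔫) :=
    (Subalgebra.inclusion (Fermat.Agent.A2.H348.le_locAt 𝔫)).toRingHom.toAlgebra
  haveI : IsLocalization.AtPrime (Fermat.Agent.A2.H348.locAt A 𝔫) 𝔫 :=
    Fermat.Agent.Ribet.H132.isLocalization_subLoc A 𝔫
  exact IsLocalization.AtPrime.isLocalRing (Fermat.Agent.A2.H348.locAt A 𝔫) 𝔫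

/-- The maximal ideal of `locAt A 𝔫` contracts to `𝔫`. -/
theorem mem_maximalIdeal_locAt_iff (A : Subalgebra R L) (𝔫 : Ideal A) [h𝔫 : 𝔫.IsPrime]
    [IsLocalRing (Fermat.Agent.A2.H348.locAt A 𝔫)] (a : A) :
    (⟨(a : L), Fermat.Agent.A2.H348.le_locAt 𝔫 a.2⟩ : Fermat.Agent.A2.H348.locAt A 𝔫) ∈
      IsLocalRing.maximalIdeal (Fermat.Agent.A2.H348.locAt A 𝔫) ↔ a ∈ 𝔫 := by
  letI : Algebra A (Fermat.Agent.A2.H348.locAt A 𝔫) :=
    (Subalgebra.inclusion (Fermat.Agent.A2.H348.le_locAt 𝔫)).toRingHom.toAlgebra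
  haveI : IsLocalization.AtPrime (Fermat.Agent.A2.H348.locAt A 𝔫) 𝔫 :=
    Fermat.Agent.Ribet.H132.isLocalization_subLoc A 𝔫
  exact IsLocalization.AtPrime.to_map_mem_maximal_iff (Fermat.Agent.A2.H348.locAt A 𝔫) 𝔫 a

end Local

section EtaleAt

variable {R L : Type} [CommRing R] [IsDomain R] [IsIntegrallyClosed R] [IsNoetherianRing R]
  [IsLocalRing R] [Field L] [Algebra R L]

/-- **Étale local extension inside a field, at a GIVEN maximal ideal** (form with a name `A` for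
the subalgebra `R[Y]`).  Hypotheses as in `H132.exists_nodeRing_of_etale`; `𝔫` is any maximal
ideal of `A = R[Y]` and `R' = locAt A 𝔫`. -/
theorem nodeRing_locAt_of_eq (hinj : Function.Injective (algebraMap R L))
    (hk : IsAlgClosed (IsLocalRing.ResidueField R))
    {𝔭₁ 𝔭₂ : Ideal R} {π x y : R} (hN : I6.IsNode 𝔭₁ 𝔭₂ π x y)
    (Y : L) (P : R[X]) (hP : P.Monic) (hPY : aeval Y P = 0)
    (A : Subalgebra R L) (hA : A = Algebra.adjoin R ({Y} : Set L))
    (hP' : ∃ w ∈ A, aeval Y (derivative P) * w = 1)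
    (hfrac : ∀ z : L, ∃ a b : L, a ∈ A ∧ b ∈ A ∧ b ≠ 0 ∧ z * b = a)
    (𝔫 : Ideal A) [h𝔫 : 𝔫.IsMaximal]
    [hlocal : IsLocalRing (Fermat.Agent.A2.H348.locAt A 𝔫)] :
    IsIntegrallyClosed (Fermat.Agent.A2.H348.locAt A 𝔫) ∧
    IsNoetherianRing (Fermat.Agent.A2.H348.locAt A 𝔫) ∧
    IsFractionRing (Fermat.Agent.A2.H348.locAt A 𝔫) L ∧
    I6.IsNode
      (𝔭₁.map (algebraMap R (Fermat.Agent.A2.H348.locAt A 𝔫)))
      (𝔭₂.map (algebraMap R (Fermat.Agent.A2.H348.locAt A 𝔫)))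
      (algebraMap R (Fermat.Agent.A2.H348.locAt A 𝔫) π)
      (algebraMap R (Fermat.Agent.A2.H348.locAt A 𝔫) x)
      (algebraMap R (Fermat.Agent.A2.H348.locAt A 𝔫) y) ∧
    (∀ a : R, algebraMap R (Fermat.Agent.A2.H348.locAt A 𝔫) a ∈
      𝔭₁.map (algebraMap R (Fermat.Agent.A2.H348.locAt A 𝔫)) → a ∈ 𝔭₁) ∧
    (∀ a : R, algebraMap R (Fermat.Agent.A2.H348.locAt A 𝔫) a ∈
      𝔭₂.map (algebraMap R (Fermat.Agent.A2.H348.locAt A 𝔫)) → a ∈ 𝔭₂) ∧
    IsLocalHom (algebraMap R (Fermat.Agent.A2.H348.locAt A 𝔫)) ∧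
    (∀ z : Fermat.Agent.A2.H348.locAt A 𝔫, ∃ r : R,
      z - algebraMap R (Fermat.Agent.A2.H348.locAt A 𝔫) r ∈
        IsLocalRing.maximalIdeal (Fermat.Agent.A2.H348.locAt A 𝔫)) := by
  classical
  have hYA : Y ∈ A := by rw [hA]; exact Algebra.subset_adjoin (Set.mem_singleton Y)
  have hYint : IsIntegral R Y := ⟨P, hP, by rwa [← aeval_def]⟩
  haveI hAint : Algebra.IsIntegral R A := by
    have h0 : Algebra.IsIntegral R (Algebra.adjoin R ({Y} : Set L)) :=
      Algebra.IsIntegral.adjoin (fun z hz => by rw [Set.mem_singleton_iff.1 hz]; exact hYint)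
    exact hA.symm ▸ h0
  haveI h𝔫p : 𝔫.IsPrime := h𝔫.isPrime
  set R' : Subalgebra R L := Fermat.Agent.A2.H348.locAt A 𝔫 with hR'
  have hle : A ≤ R' := Fermat.Agent.A2.H348.le_locAt 𝔫
  letI algAR' : Algebra A R' := (Subalgebra.inclusion hle).toRingHom.toAlgebra
  haveI hloc : IsLocalization.AtPrime R' 𝔫 := Fermat.Agent.Ribet.H132.isLocalization_subLoc A 𝔫
  haveI htower : IsScalarTower R A R' := IsScalarTower.of_algebraMap_eq fun r => rfl
  have hmaxR' : ∀ a : A, algebraMap A R' a ∈ IsLocalRing.maximalIdeal R' ↔ a ∈ 𝔫 := fun a =>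
    IsLocalization.AtPrime.to_map_mem_maximal_iff R' 𝔫 a
  -- (1) `𝔫` lies over the maximal ideal of `R`
  have hcomap : 𝔫.comap (algebraMap R A) = IsLocalRing.maximalIdeal R := by
    haveI : (𝔫.comap (algebraMap R A)).IsMaximal :=
      Ideal.isMaximal_comap_of_isIntegral_of_isMaximal (R := R) (S := A) 𝔫
    exact IsLocalRing.eq_maximalIdeal inferInstance
  have hm𝔫 : ∀ r : R, r ∈ IsLocalRing.maximalIdeal R → algebraMap R A r ∈ 𝔫 := by
    intro r hr
    rw [← hcomap] at hr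
    exact hr
  -- (2) the structure map is local
  haveI hlh : IsLocalHom (algebraMap R R') := by
    constructor
    intro r hr
    by_contra hnu
    have h1 : algebraMap R A r ∈ 𝔫 := hm𝔫 r ((IsLocalRing.mem_maximalIdeal r).2 hnu)
    have h2 : algebraMap A R' (algebraMap R A r) ∈ IsLocalRing.maximalIdeal R' := (hmaxR' _).2 h1
    rw [← IsScalarTower.algebraMap_apply] at h2
    exact (IsLocalRing.mem_maximalIdeal _).1 h2 hr
  -- (3) injectivity
  have hinj' : Function.Injective (algebraMap R R') := by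
    intro a b hab
    apply hinj
    exact congrArg (fun t : R' => (t : L)) hab
  haveI : Module.IsTorsionFree R R' := Module.isTorsionFree_iff_algebraMap_injective.2 hinj'
  -- (4) the root
  set Y' : R' := ⟨Y, hle hYA⟩ with hY'
  have hcoe : ∀ Q : R[X], ((aeval Y' Q : R') : L) = aeval Y Q := fun Q =>
    aeval_subalgebra_coe Q R' Y'
  have hPY' : aeval Y' P = 0 := by
    apply Subtype.ext
    rw [hcoe, hPY]
    rfl
  have hYint' : IsIntegral R Y' := ⟨P, hP, by rwa [← aeval_def]⟩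
  -- (5) the derivative is a unit
  have hP'u : IsUnit (aeval Y' (derivative P)) := by
    obtain ⟨w, hw, hPw⟩ := hP'
    refine IsUnit.of_mul_eq_one (⟨w, hle hw⟩ : R') ?_
    apply Subtype.ext
    show ((aeval Y' (derivative P) : R') : L) * w = 1
    rw [hcoe, hPw]
  -- (6) fractions
  have hadj : ∀ a₀ : L, ∀ ha₀ : a₀ ∈ A, (⟨a₀, hle ha₀⟩ : R') ∈ Algebra.adjoin R ({Y'} : Set R') := by
    intro a₀ ha₀
    have hmap : (Algebra.adjoin R ({Y'} : Set R')).map R'.val = A := by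
      rw [AlgHom.map_adjoin, Set.image_singleton, hA]
      rfl
    have : a₀ ∈ (Algebra.adjoin R ({Y'} : Set R')).map R'.val := by rw [hmap]; exact ha₀
    obtain ⟨a', ha', hval⟩ := this
    have : a' = ⟨a₀, hle ha₀⟩ := Subtype.ext hval
    rw [← this]
    exact ha'
  have hfracE : ∀ z : R', ∃ (a : R') (s : R'), a ∈ Algebra.adjoin R ({Y'} : Set R') ∧
      s ∈ Algebra.adjoin R ({Y'} : Set R') ∧ IsUnit s ∧ z * s = a := by
    intro z
    obtain ⟨s₀, hs₀, hsz⟩ := z.2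
    refine ⟨⟨(s₀ : L) * z, hle hsz⟩, ⟨(s₀ : L), hle s₀.2⟩, hadj _ hsz, hadj _ s₀.2, ?_, ?_⟩
    · exact IsLocalization.map_units R' (⟨s₀, hs₀⟩ : 𝔫.primeCompl)
    · apply Subtype.ext
      show (z : L) * (s₀ : L) = (s₀ : L) * z
      exact mul_comm _ _
  -- (7) the residue field is trivial
  have hresA : ∀ a : A, ∃ r : R, a - algebraMap R A r ∈ 𝔫 := by
    intro a
    letI : Field (A ⧸ 𝔫) := Ideal.Quotient.field 𝔫
    set φ : R →+* (A ⧸ 𝔫) := (Ideal.Quotient.mk 𝔫).comp (algebraMap R A) with hφ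
    have hφint : φ.IsIntegral :=
      RingHom.IsIntegral.trans _ _ (fun a => Algebra.IsIntegral.isIntegral (R := R) a)
        (RingHom.isIntegral_of_surjective _ Ideal.Quotient.mk_surjective)
    have hkill : ∀ r ∈ IsLocalRing.maximalIdeal R, φ r = 0 := by
      intro r hr
      rw [hφ, RingHom.comp_apply, Ideal.Quotient.eq_zero_iff_mem]
      exact hm𝔫 r hr
    let ρ : IsLocalRing.ResidueField R →+* (A ⧸ 𝔫) :=
      Ideal.Quotient.lift (IsLocalRing.maximalIdeal R) φ hkill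
    have hρ : ∀ r : R, ρ (IsLocalRing.residue R r) = φ r := fun r => rfl
    have hρint : ρ.IsIntegral := by
      refine RingHom.IsIntegral.tower_top (IsLocalRing.residue R) ρ ?_
      have : ρ.comp (IsLocalRing.residue R) = φ := RingHom.ext hρ
      rw [this]
      exact hφint
    obtain ⟨c, hc⟩ := (IsAlgClosed.ringHom_bijective_of_isIntegral ρ hρint).2
      (Ideal.Quotient.mk 𝔫 a)
    obtain ⟨r, rfl⟩ := IsLocalRing.residue_surjective c
    refine ⟨r, ?_⟩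
    rw [← Ideal.Quotient.eq, ← hc, hρ]
    rfl
  have hres : ∀ z : R', ∃ r : R, z - algebraMap R R' r ∈ IsLocalRing.maximalIdeal R' := by
    intro z
    obtain ⟨⟨a, s⟩, hz⟩ := IsLocalization.surj 𝔫.primeCompl z
    obtain ⟨r₁, hr₁⟩ := hresA a
    obtain ⟨r₂, hr₂⟩ := hresA (s : A)
    have hr₂u : IsUnit r₂ := by
      by_contra hnu
      have h1 : algebraMap R A r₂ ∈ 𝔫 := hm𝔫 r₂ ((IsLocalRing.mem_maximalIdeal r₂).2 hnu)
      have h2 : (s : A) ∈ 𝔫 := by
        have : (s : A) = ((s : A) - algebraMap R A r₂) + algebraMap R A r₂ := by ring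
        rw [this]
        exact 𝔫.add_mem hr₂ h1
      exact s.2 h2
    obtain ⟨r₂', hr₂'⟩ := hr₂u.exists_right_inv
    refine ⟨r₁ * r₂', ?_⟩
    set ι := algebraMap A R' with hι
    have hsu : IsUnit (ι (s : A)) := IsLocalization.map_units R' s
    have e0 : algebraMap R R' (r₁ * r₂') = ι (algebraMap R A (r₁ * r₂')) :=
      IsScalarTower.algebraMap_apply R A R' _
    have key : (z - ι (algebraMap R A (r₁ * r₂'))) * ι (s : A) =
        ι (a - algebraMap R A r₁) -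
          ι (algebraMap R A (r₁ * r₂')) * ι ((s : A) - algebraMap R A r₂) := by
      have e1 : ι (algebraMap R A (r₁ * r₂')) * ι (algebraMap R A r₂) =
          ι (algebraMap R A r₁) := by
        rw [← map_mul, ← map_mul]
        congr 2
        rw [mul_assoc, mul_comm r₂' r₂, hr₂', mul_one]
      simp only [map_sub, sub_mul, mul_sub]
      rw [hz, e1]
      ring
    have hmem : (z - ι (algebraMap R A (r₁ * r₂'))) * ι (s : A) ∈
        IsLocalRing.maximalIdeal R' := by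
      rw [key]
      exact Ideal.sub_mem _ ((hmaxR' _).2 hr₁) (Ideal.mul_mem_left _ _ ((hmaxR' _).2 hr₂))
    obtain ⟨t, ht⟩ := hsu.exists_right_inv
    have : z - algebraMap R R' (r₁ * r₂') =
        (z - ι (algebraMap R A (r₁ * r₂'))) * ι (s : A) * t := by
      rw [mul_assoc, ht, mul_one, e0]
    rw [this]
    exact Ideal.mul_mem_right _ _ hmem
  -- (8) ETNODE
  obtain ⟨hIC, hNoeth, hNode⟩ := Fermat.Agent.Ribet.H600.etaleNode R R' 𝔭₁ 𝔭₂ π x y hN hinj'
    Y' P hP hPY' hP'u hfracE hres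
  -- (9) the fraction field
  have hFrac : IsFractionRing R' L := by
    haveI : FaithfulSMul R' L :=
      (faithfulSMul_iff_algebraMap_injective R' L).2 Subtype.val_injective
    refine IsFractionRing.of_field (R := R') (K := L) ?_
    intro z
    obtain ⟨a, b, ha, hb, hb0, hzb⟩ := hfrac z
    refine ⟨⟨a, hle ha⟩, ⟨b, hle hb⟩, ?_⟩
    show z = a / b
    rw [eq_div_iff hb0, hzb]
  exact ⟨hIC, hNoeth, hFrac, hNode,
    fun a ha => Fermat.Agent.Ribet.H600.mem_of_algebraMap_mem_map Y' hYint' hfracE hN.prime₁ ha,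
    fun a ha => Fermat.Agent.Ribet.H600.mem_of_algebraMap_mem_map Y' hYint' hfracE hN.prime₂ ha,
    hlh, hres⟩


/-- **Étale local extension inside a field, at a GIVEN maximal ideal `𝔫` of `R[Y]`.** -/
theorem nodeRing_locAt (hinj : Function.Injective (algebraMap R L))
    (hk : IsAlgClosed (IsLocalRing.ResidueField R))
    {𝔭₁ 𝔭₂ : Ideal R} {π x y : R} (hN : I6.IsNode 𝔭₁ 𝔭₂ π x y)
    (Y : L) (P : R[X]) (hP : P.Monic) (hPY : aeval Y P = 0)
    (hP' : ∃ w ∈ Algebra.adjoin R ({Y} : Set L), aeval Y (derivative P) * w = 1)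
    (hfrac : ∀ z : L, ∃ a b : L, a ∈ Algebra.adjoin R ({Y} : Set L) ∧
      b ∈ Algebra.adjoin R ({Y} : Set L) ∧ b ≠ 0 ∧ z * b = a)
    (𝔫 : Ideal (Algebra.adjoin R ({Y} : Set L))) [h𝔫 : 𝔫.IsMaximal]
    [hlocal : IsLocalRing (Fermat.Agent.A2.H348.locAt (Algebra.adjoin R ({Y} : Set L)) 𝔫)] :
    IsIntegrallyClosed (Fermat.Agent.A2.H348.locAt (Algebra.adjoin R ({Y} : Set L)) 𝔫) ∧
    IsNoetherianRing (Fermat.Agent.A2.H348.locAt (Algebra.adjoin R ({Y} : Set L)) 𝔫) ∧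
    IsFractionRing (Fermat.Agent.A2.H348.locAt (Algebra.adjoin R ({Y} : Set L)) 𝔫) L ∧
    I6.IsNode (𝔭₁.map (algebraMap R (Fermat.Agent.A2.H348.locAt (Algebra.adjoin R ({Y} : Set L)) 𝔫))) (𝔭₂.map (algebraMap R (Fermat.Agent.A2.H348.locAt (Algebra.adjoin R ({Y} : Set L)) 𝔫)))
      (algebraMap R (Fermat.Agent.A2.H348.locAt (Algebra.adjoin R ({Y} : Set L)) 𝔫) π) (algebraMap R (Fermat.Agent.A2.H348.locAt (Algebra.adjoin R ({Y} : Set L)) 𝔫) x) (algebraMap R (Fermat.Agent.A2.H348.locAt (Algebra.adjoin R ({Y} : Set L)) 𝔫) y) ∧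
    (∀ a : R, algebraMap R (Fermat.Agent.A2.H348.locAt (Algebra.adjoin R ({Y} : Set L)) 𝔫) a ∈ 𝔭₁.map (algebraMap R (Fermat.Agent.A2.H348.locAt (Algebra.adjoin R ({Y} : Set L)) 𝔫)) → a ∈ 𝔭₁) ∧
    (∀ a : R, algebraMap R (Fermat.Agent.A2.H348.locAt (Algebra.adjoin R ({Y} : Set L)) 𝔫) a ∈ 𝔭₂.map (algebraMap R (Fermat.Agent.A2.H348.locAt (Algebra.adjoin R ({Y} : Set L)) 𝔫)) → a ∈ 𝔭₂) ∧
    IsLocalHom (algebraMap R (Fermat.Agent.A2.H348.locAt (Algebra.adjoin R ({Y} : Set L)) 𝔫)) ∧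
    (∀ z : (Fermat.Agent.A2.H348.locAt (Algebra.adjoin R ({Y} : Set L)) 𝔫), ∃ r : R, z - algebraMap R (Fermat.Agent.A2.H348.locAt (Algebra.adjoin R ({Y} : Set L)) 𝔫) r ∈ IsLocalRing.maximalIdeal (Fermat.Agent.A2.H348.locAt (Algebra.adjoin R ({Y} : Set L)) 𝔫)) :=
  nodeRing_locAt_of_eq hinj hk hN Y P hP hPY _ rfl hP' hfrac 𝔫

/-- The shape of `H132.exists_nodeRing_of_etale`, with `R' = locAt (R[Y]) 𝔫` for the GIVEN
maximal ideal `𝔫`. -/
theorem exists_nodeRing_of_etale_at (hinj : Function.Injective (algebraMap R L))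
    (hk : IsAlgClosed (IsLocalRing.ResidueField R))
    {𝔭₁ 𝔭₂ : Ideal R} {π x y : R} (hN : I6.IsNode 𝔭₁ 𝔭₂ π x y)
    (Y : L) (P : R[X]) (hP : P.Monic) (hPY : aeval Y P = 0)
    (hP' : ∃ w ∈ Algebra.adjoin R ({Y} : Set L), aeval Y (derivative P) * w = 1)
    (hfrac : ∀ z : L, ∃ a b : L, a ∈ Algebra.adjoin R ({Y} : Set L) ∧
      b ∈ Algebra.adjoin R ({Y} : Set L) ∧ b ≠ 0 ∧ z * b = a)
    (𝔫 : Ideal (Algebra.adjoin R ({Y} : Set L))) [h𝔫 : 𝔫.IsMaximal] :
    ∃ (R' : Subalgebra R L) (_ : IsLocalRing R'),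
      R' = (Fermat.Agent.A2.H348.locAt (Algebra.adjoin R ({Y} : Set L)) 𝔫) ∧
      IsIntegrallyClosed R' ∧ IsNoetherianRing R' ∧ IsFractionRing R' L ∧
      I6.IsNode (𝔭₁.map (algebraMap R R')) (𝔭₂.map (algebraMap R R')) (algebraMap R R' π)
        (algebraMap R R' x) (algebraMap R R' y) ∧
      (∀ a : R, algebraMap R R' a ∈ 𝔭₁.map (algebraMap R R') → a ∈ 𝔭₁) ∧
      (∀ a : R, algebraMap R R' a ∈ 𝔭₂.map (algebraMap R R') → a ∈ 𝔭₂) ∧
      IsLocalHom (algebraMap R R') ∧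
      (∀ z : R', ∃ r : R, z - algebraMap R R' r ∈ IsLocalRing.maximalIdeal R') := by
  haveI hl : IsLocalRing (Fermat.Agent.A2.H348.locAt (Algebra.adjoin R ({Y} : Set L)) 𝔫) := isLocalRing_locAt _ 𝔫
  obtain ⟨h1, h2, h3, h4, h5, h6, h7, h8⟩ :=
    nodeRing_locAt hinj hk hN Y P hP hPY hP' hfrac 𝔫
  exact ⟨_, hl, rfl, h1, h2, h3, h4, h5, h6, h7, h8⟩

end EtaleAt

end Fermat.Agent.Ribet.H939
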