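import Fermat.Agent.Ribet.H704.CoreOutSpec
import Fermat.Agent.Ribet.H939.NodeRingAt

/-!
# RIBET wall-p, (S4) CORE-OUT WILD: leaf (A5) COVER-NODE, two levels, VERBATIM (helper939)

`coverNode2 : CoreOut.CoverNode2Statement` (frozen in `Ribet/H704/CoreOutSpec.lean`).

Route: WPUR at level `1` (`H524.wildPurity524`) gives `g d₂^p = d₁^p s^p (1 + λ^p z)` in `R₁`.
`Y₁ := (h d₂ / (d₁ s) - 1) / λ ∈ L₁` and its image `Y₂ ∈ L₂` are roots of the Artin–Schreier type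
polynomials over `R₁` and `R₂` (`etale_of_wpur`, the relation of level `1` mapped to level `2`).
`𝔫₂` := any maximal ideal of `A₂ = R₂[Y₂]`, `𝔫₁ := 𝔫₂ ∩ A₁`, `A₁ = R₁[Y₁]`; `𝔫₁` is maximal because
`R₁ → R₂` is local (`𝔪ᵢ = 𝔭₁ + 𝔭₂`, branches over branches) and `A₁` is integral over `R₁`.
`R' := (A₁)_{𝔫₁}`, `R'' := (A₂)_{𝔫₂}` (`H939.nodeRing_locAt`, the étale node ring theorem at a GIVEN
maximal ideal), and `R' ⊆ R''` is clear.
-/

set_option autoImplicit false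
set_option linter.unusedSectionVars false
set_option linter.style.haveILetI false
set_option synthInstance.maxHeartbeats 400000
set_option maxHeartbeats 1000000

open Polynomial

namespace Fermat.Agent.Ribet.H939

open Fermat.Agent.Ribet.H704 Fermat.Agent.Ribet.H704.I6

/-! ## The étale data of a wild Kummer equation -/

/-- From the WPUR relation `g d₂^p = d₁^p s^p (1 + λ^p z)` and `h ^ p = g`: the element `Y` with
`h d₂ = (1 + λ Y) d₁ s` is a root of a monic `P ∈ R[X]` with `P'(Y)` a unit of `R[Y]`, and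
`K(h) = Frac R[Y]`. -/
theorem etale_of_wpur {R K L : Type*} [CommRing R] [IsDomain R] [Field K] [Algebra R K]
    [IsFractionRing R K] [Field L] [Algebra K L] [Algebra R L] [IsScalarTower R K L]
    {p : ℕ} (hp : p.Prime) (lam ε ε' z v d₁ d₂ s g : R) (hlam0 : lam ≠ 0)
    (hεε' : ε * ε' = 1) (hpl : (p : R) = lam ^ (p - 1) * ε')
    (hv : (1 + lam ^ p * z) * v = 1)
    (hd₁ : d₁ ≠ 0) (hd₂ : d₂ ≠ 0) (hs : s ≠ 0)
    (hgd : g * d₂ ^ p = d₁ ^ p * s ^ p * (1 + lam ^ p * z))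
    (h Y : L) (hh : h ^ p = algebraMap R L g)
    (hY : h * algebraMap R L d₂ =
      (1 + algebraMap R L lam * Y) * (algebraMap R L d₁ * algebraMap R L s))
    (hadj : IntermediateField.adjoin K ({h} : Set L) = ⊤) :
    ∃ P : R[X], P.Monic ∧ aeval Y P = 0 ∧
      (∃ w ∈ Algebra.adjoin R ({Y} : Set L), aeval Y (derivative P) * w = 1) ∧
      (∀ z' : L, ∃ a b : L, a ∈ Algebra.adjoin R ({Y} : Set L) ∧
        b ∈ Algebra.adjoin R ({Y} : Set L) ∧ b ≠ 0 ∧ z' * b = a) := by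
  classical
  set ι : R →+* L := algebraMap R L with hι
  have hinj : Function.Injective ι := by
    rw [hι, IsScalarTower.algebraMap_eq R K L]
    exact (algebraMap K L).injective.comp (IsFractionRing.injective R K)
  have hι0 : ∀ r : R, r ≠ 0 → ι r ≠ 0 := fun r hr h0 => hr (hinj (by rw [h0, map_zero]))
  obtain ⟨P, hP, hPmain, hPder⟩ := Fermat.Agent.Ribet.H132.exists_asPoly hp lam ε' z hlam0 hpl
  have hd₁L : ι d₁ ≠ 0 := hι0 d₁ hd₁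
  have hd₂L : ι d₂ ≠ 0 := hι0 d₂ hd₂
  have hsL : ι s ≠ 0 := hι0 s hs
  have hlamL : ι lam ≠ 0 := hι0 lam hlam0
  set u : L := 1 + ι lam * Y with hu
  have hup : u ^ p = ι (1 + lam ^ p * z) := by
    have e1 : h ^ p * ι d₂ ^ p = ι d₁ ^ p * ι s ^ p * ι (1 + lam ^ p * z) := by
      rw [hh]
      show ι g * ι d₂ ^ p = _
      rw [← map_pow, ← map_pow, ← map_pow, ← map_mul, ← map_mul, ← map_mul, hgd]
    have e2 : h ^ p * ι d₂ ^ p = u ^ p * (ι d₁ ^ p * ι s ^ p) := by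
      rw [← mul_pow, hY, mul_pow, mul_pow]
    have e3 : u ^ p * (ι d₁ ^ p * ι s ^ p) = ι (1 + lam ^ p * z) * (ι d₁ ^ p * ι s ^ p) := by
      rw [← e2, e1]; ring
    exact mul_right_cancel₀ (mul_ne_zero (pow_ne_zero _ hd₁L) (pow_ne_zero _ hsL)) e3
  have haevalC : ∀ r : R, aeval Y (C r) = ι r := fun r => aeval_C Y r
  have hPY : aeval Y P = 0 := by
    have h1 : aeval Y (C (lam ^ p) * P) = 0 := by
      rw [hPmain]
      simp only [map_sub, map_pow, map_add, map_one, map_mul, aeval_X, haevalC]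
      rw [← hu, hup]
      simp only [map_add, map_one, map_mul, map_pow]
      ring
    rw [map_mul, haevalC] at h1
    exact (mul_eq_zero.1 h1).resolve_left (hι0 _ (pow_ne_zero _ hlam0))
  have hder : aeval Y (derivative P) = ι ε' * u ^ (p - 1) := by
    rw [hPder]
    simp only [map_mul, map_pow, map_add, map_one, aeval_X, haevalC]
    rw [← hu]
  have hYA : Y ∈ Algebra.adjoin R ({Y} : Set L) := Algebra.subset_adjoin (Set.mem_singleton Y)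
  have huA : u ∈ Algebra.adjoin R ({Y} : Set L) :=
    Subalgebra.add_mem _ (Subalgebra.one_mem _)
      (Subalgebra.mul_mem _ (Subalgebra.algebraMap_mem _ lam) hYA)
  have hP' : ∃ w ∈ Algebra.adjoin R ({Y} : Set L), aeval Y (derivative P) * w = 1 := by
    refine ⟨ι ε * u * ι v, Subalgebra.mul_mem _ (Subalgebra.mul_mem _
      (Subalgebra.algebraMap_mem _ ε) huA) (Subalgebra.algebraMap_mem _ v), ?_⟩
    rw [hder]
    have hidx : p - 1 + 1 = p := by have := hp.one_lt; omega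
    have e1 : ι ε' * u ^ (p - 1) * (ι ε * u * ι v) = ι (ε * ε') * (u ^ (p - 1 + 1)) * ι v := by
      rw [map_mul, pow_succ]
      ring
    rw [e1, hidx, hup, hεε', map_one, one_mul, ← map_mul, hv, map_one]
  have hfrac : ∀ z' : L, ∃ a b : L, a ∈ Algebra.adjoin R ({Y} : Set L) ∧
      b ∈ Algebra.adjoin R ({Y} : Set L) ∧ b ≠ 0 ∧ z' * b = a := by
    set A : Subalgebra R L := Algebra.adjoin R ({Y} : Set L) with hA
    set Q : Subfield L := Subfield.closure (A : Set L) with hQ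
    have hAQ : ∀ a ∈ A, a ∈ Q := fun a ha => Subfield.subset_closure ha
    have hKQ : ∀ k : K, algebraMap K L k ∈ Q := by
      intro k
      obtain ⟨a, b, -, rfl⟩ := IsFractionRing.div_surjective (A := R) k
      rw [map_div₀, ← IsScalarTower.algebraMap_apply, ← IsScalarTower.algebraMap_apply]
      exact div_mem (hAQ _ (Subalgebra.algebraMap_mem _ a)) (hAQ _ (Subalgebra.algebraMap_mem _ b))
    have hhQ : h ∈ Q := by
      have : h = u * (ι d₁ * ι s) / ι d₂ := by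
        rw [eq_div_iff hd₂L, hY]
      rw [this]
      exact div_mem (mul_mem (hAQ _ huA) (mul_mem (hAQ _ (Subalgebra.algebraMap_mem _ d₁))
        (hAQ _ (Subalgebra.algebraMap_mem _ s)))) (hAQ _ (Subalgebra.algebraMap_mem _ d₂))
    have htop : IntermediateField.adjoin K ({h} : Set L) ≤ Subfield.toIntermediateField Q hKQ := by
      rw [IntermediateField.adjoin_le_iff]
      intro t ht
      rw [Set.mem_singleton_iff] at ht
      subst ht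
      exact hhQ
    intro z'
    have hz' : z' ∈ Q := htop (by rw [hadj]; trivial)
    rw [hQ, Subfield.mem_closure_iff] at hz'
    obtain ⟨a, ha, b, hb, hab⟩ := hz'
    have hcl : Subring.closure (A : Set L) ≤ A.toSubring := Subring.closure_le.2 (fun t ht => ht)
    by_cases hb0 : b = 0
    · refine ⟨0, 1, Subalgebra.zero_mem _, Subalgebra.one_mem _, one_ne_zero, ?_⟩
      rw [← hab, hb0, div_zero, zero_mul]
    · refine ⟨a, b, hcl ha, hcl hb, hb0, ?_⟩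
      rw [← hab]
      field_simp
  exact ⟨P, hP, hPY, hP', hfrac⟩

/-! ## Functoriality of `locAt` -/

section Functoriality

variable {R₁ R₂ L₁ L₂ : Type*} [CommRing R₁] [CommRing R₂] [Field L₁] [Field L₂]
  [Algebra R₁ L₁] [Algebra R₂ L₂]

/-- The restriction of a ring homomorphism of fields to subalgebras. -/
def subalgHom (φ : L₁ →+* L₂) (A₁ : Subalgebra R₁ L₁) (A₂ : Subalgebra R₂ L₂)
    (hφ : ∀ a ∈ A₁, φ a ∈ A₂) : A₁ →+* A₂ where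
  toFun a := ⟨φ a, hφ a a.2⟩
  map_one' := Subtype.ext (map_one φ)
  map_mul' a b := Subtype.ext (map_mul φ (a : L₁) (b : L₁))
  map_zero' := Subtype.ext (map_zero φ)
  map_add' a b := Subtype.ext (map_add φ (a : L₁) (b : L₁))

@[simp] theorem coe_subalgHom (φ : L₁ →+* L₂) (A₁ : Subalgebra R₁ L₁) (A₂ : Subalgebra R₂ L₂)
    (hφ : ∀ a ∈ A₁, φ a ∈ A₂) (a : A₁) : ((subalgHom φ A₁ A₂ hφ a : A₂) : L₂) = φ a := rfl

/-- `(A₁)_{𝔫₂ ∩ A₁} ⊆ (A₂)_{𝔫₂}`. -/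
theorem map_mem_locAt (φ : L₁ →+* L₂) (A₁ : Subalgebra R₁ L₁) (A₂ : Subalgebra R₂ L₂)
    (hφ : ∀ a ∈ A₁, φ a ∈ A₂) (𝔫₂ : Ideal A₂) [𝔫₂.IsPrime] (𝔫₁ : Ideal A₁) [𝔫₁.IsPrime]
    (h𝔫 : ∀ a : A₁, a ∉ 𝔫₁ → subalgHom φ A₁ A₂ hφ a ∉ 𝔫₂) {z : L₁}
    (hz : z ∈ Fermat.Agent.A2.H348.locAt A₁ 𝔫₁) :
    φ z ∈ Fermat.Agent.A2.H348.locAt A₂ 𝔫₂ := by
  obtain ⟨s, hs, hsz⟩ := hz
  refine ⟨subalgHom φ A₁ A₂ hφ s, h𝔫 s hs, ?_⟩
  rw [coe_subalgHom, ← map_mul]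
  exact hφ _ hsz

end Functoriality

/-! ## The leaf -/

/-- **(A5) COVER-NODE, two levels** (verbatim). -/
theorem coverNode2 : CoreOut.CoverNode2Statement := by
  intro R₁ R₂ K₁ K₂ L₁ L₂
  intro _ _ _ _ _ _ _ _ _ _ _ _ _ _ _ _ _ _ _ _ _ _ _ _ _ _ _ _ _
  intro 𝔭₁ 𝔭₂ π₁ x₁ y₁ hN₁ 𝔮₁ 𝔮₂ π₂ x₂ y₂ hN₂ hk₁ hk₂ hinj12 hq₁ hq₂ p hp ζ hζ lam ε η e hlamζ hε
    hlam_p hη he hlam g hg₁ hg₂ hdiv hs₁ hs₂ h hh hadj₁ hadj₂
  classical
  -- WPUR at level `1`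
  obtain ⟨d₁, d₂, s, z, hd₁, hd₂, hs, hgd⟩ := Fermat.Agent.Ribet.H524.wildPurity524 R₁ 𝔭₁ 𝔭₂ π₁
    x₁ y₁ hN₁ p hp lam ε η e hε hlam_p hη he hlam g hg₁ hg₂ hdiv hs₁ hs₂
  -- the maps
  have hcompat : ∀ r : R₁, algebraMap L₁ L₂ (algebraMap R₁ L₁ r) =
      algebraMap R₂ L₂ (algebraMap R₁ R₂ r) := by
    intro r
    rw [← IsScalarTower.algebraMap_apply R₁ L₁ L₂, ← IsScalarTower.algebraMap_apply R₁ R₂ L₂]
  have hinj₁ : Function.Injective (algebraMap R₁ L₁) := by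
    rw [IsScalarTower.algebraMap_eq R₁ K₁ L₁]
    exact (algebraMap K₁ L₁).injective.comp (IsFractionRing.injective R₁ K₁)
  have hinj₂ : Function.Injective (algebraMap R₂ L₂) := by
    rw [IsScalarTower.algebraMap_eq R₂ K₂ L₂]
    exact (algebraMap K₂ L₂).injective.comp (IsFractionRing.injective R₂ K₂)
  have hj0 : ∀ r : R₁, r ≠ 0 → algebraMap R₁ R₂ r ≠ 0 :=
    fun r hr h0 => hr (hinj12 (by rw [h0, map_zero]))
  have hι0 : ∀ r : R₁, r ≠ 0 → algebraMap R₁ L₁ r ≠ 0 :=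
    fun r hr h0 => hr (hinj₁ (by rw [h0, map_zero]))
  -- `π₁ ≠ 0`, `λ ≠ 0`, `λ ∈ 𝔪₁`
  have hπ0 : π₁ ≠ 0 := by
    rintro rfl
    have hxy : x₁ * y₁ ∈ 𝔭₁ ⊓ 𝔭₂ := ⟨𝔭₁.mul_mem_left _ hN₁.hy, 𝔭₂.mul_mem_right _ hN₁.hx⟩
    rw [hN₁.inf_eq, Ideal.mem_span_singleton, zero_dvd_iff] at hxy
    rcases mul_eq_zero.1 hxy with h0 | h0
    · exact hN₁.hx₁ (h0 ▸ 𝔭₁.zero_mem)
    · exact hN₁.hy₂ (h0 ▸ 𝔭₂.zero_mem)
  have hlam0 : lam ≠ 0 := by
    rw [hlam]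
    exact mul_ne_zero hη.ne_zero (pow_ne_zero _ hπ0)
  have hπm : π₁ ∈ IsLocalRing.maximalIdeal R₁ := by
    have h1 : π₁ ∈ 𝔭₁ :=
      (inf_le_left : 𝔭₁ ⊓ 𝔭₂ ≤ 𝔭₁) (hN₁.inf_eq ▸ Ideal.mem_span_singleton_self π₁)
    exact IsLocalRing.le_maximalIdeal hN₁.prime₁.ne_top h1
  have hlamm : lam ∈ IsLocalRing.maximalIdeal R₁ := by
    rw [hlam]
    exact Ideal.mul_mem_left _ _ (Ideal.pow_mem_of_mem _ hπm e he)
  obtain ⟨ε', hεε'⟩ := hε.exists_right_inv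
  have hpl : (p : R₁) = lam ^ (p - 1) * ε' := by
    rw [hlam_p, mul_assoc, hεε', mul_one]
  have hunit : IsUnit (1 + lam ^ p * z) := by
    by_contra hnu
    have h1 : 1 + lam ^ p * z ∈ IsLocalRing.maximalIdeal R₁ :=
      (IsLocalRing.mem_maximalIdeal _).2 hnu
    have h2 : lam ^ p * z ∈ IsLocalRing.maximalIdeal R₁ :=
      Ideal.mul_mem_right _ _ (Ideal.pow_mem_of_mem _ hlamm p hp.pos)
    have h3 : (1 : R₁) ∈ IsLocalRing.maximalIdeal R₁ := by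
      have : (1 : R₁) = (1 + lam ^ p * z) - lam ^ p * z := by ring
      rw [this]
      exact Ideal.sub_mem _ h1 h2
    exact (Ideal.ne_top_iff_one _).1 (IsLocalRing.maximalIdeal.isMaximal R₁).ne_top h3
  obtain ⟨v, hv⟩ := hunit.exists_right_inv
  -- the Artin–Schreier generator on both levels
  obtain ⟨Y₁, hY₁⟩ : ∃ Y : L₁, h * algebraMap R₁ L₁ d₂ =
      (1 + algebraMap R₁ L₁ lam * Y) * (algebraMap R₁ L₁ d₁ * algebraMap R₁ L₁ s) := by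
    have hd₁L := hι0 d₁ hd₁
    have hsL := hι0 s hs.ne_zero
    have hlamL := hι0 lam hlam0
    refine ⟨(h * algebraMap R₁ L₁ d₂ / (algebraMap R₁ L₁ d₁ * algebraMap R₁ L₁ s) - 1) /
      algebraMap R₁ L₁ lam, ?_⟩
    field_simp
    ring
  obtain ⟨Y₂, hY₂def⟩ : ∃ Y : L₂, Y = algebraMap L₁ L₂ Y₁ := ⟨_, rfl⟩
  have hY₂ : algebraMap L₁ L₂ h * algebraMap R₂ L₂ (algebraMap R₁ R₂ d₂) =
      (1 + algebraMap R₂ L₂ (algebraMap R₁ R₂ lam) * Y₂) *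
        (algebraMap R₂ L₂ (algebraMap R₁ R₂ d₁) * algebraMap R₂ L₂ (algebraMap R₁ R₂ s)) := by
    have := congrArg (algebraMap L₁ L₂) hY₁
    rw [map_mul, map_mul, map_mul, map_add, map_mul, map_one, hcompat, hcompat, hcompat,
      hcompat, ← hY₂def] at this
    exact this
  have hh₂ : algebraMap L₁ L₂ h ^ p = algebraMap R₂ L₂ (algebraMap R₁ R₂ g) := by
    rw [← map_pow, hh, hcompat]
  obtain ⟨P₁, hP₁, hP₁Y, hP₁', hfrac₁⟩ := etale_of_wpur (K := K₁) hp lam ε ε' z v d₁ d₂ s g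
    hlam0 hεε' hpl hv hd₁ hd₂ hs.ne_zero hgd h Y₁ hh hY₁ hadj₁
  obtain ⟨P₂, hP₂, hP₂Y, hP₂', hfrac₂⟩ := etale_of_wpur (K := K₂) hp (algebraMap R₁ R₂ lam)
    (algebraMap R₁ R₂ ε) (algebraMap R₁ R₂ ε') (algebraMap R₁ R₂ z) (algebraMap R₁ R₂ v)
    (algebraMap R₁ R₂ d₁) (algebraMap R₁ R₂ d₂) (algebraMap R₁ R₂ s) (algebraMap R₁ R₂ g)
    (hj0 _ hlam0) (by rw [← map_mul, hεε', map_one])
    (by rw [← map_pow, ← map_mul, ← hpl, map_natCast])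
    (by rw [← map_pow, ← map_mul, ← map_one (algebraMap R₁ R₂), ← map_add, ← map_mul, hv])
    (hj0 _ hd₁) (hj0 _ hd₂) (hj0 _ hs.ne_zero)
    (by
      rw [← map_pow, ← map_pow, ← map_pow, ← map_pow, ← map_mul, ← map_mul, ← map_mul,
        ← map_one (algebraMap R₁ R₂), ← map_add, ← map_mul, hgd])
    (algebraMap L₁ L₂ h) Y₂ hh₂ hY₂ hadj₂
  -- the subalgebras `A₁ = R₁[Y₁]`, `A₂ = R₂[Y₂]`
  obtain ⟨A₁, hA₁⟩ : ∃ A : Subalgebra R₁ L₁, A = Algebra.adjoin R₁ ({Y₁} : Set L₁) := ⟨_, rfl⟩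
  obtain ⟨A₂, hA₂⟩ : ∃ A : Subalgebra R₂ L₂, A = Algebra.adjoin R₂ ({Y₂} : Set L₂) := ⟨_, rfl⟩
  rw [← hA₁] at hP₁' hfrac₁
  rw [← hA₂] at hP₂' hfrac₂
  have hY₂A : Y₂ ∈ A₂ := by rw [hA₂]; exact Algebra.subset_adjoin (Set.mem_singleton Y₂)
  have hφA : ∀ a ∈ A₁, algebraMap L₁ L₂ a ∈ A₂ := by
    intro a ha
    rw [hA₁] at ha
    induction ha using Algebra.adjoin_induction with
    | mem t ht =>
      rw [Set.mem_singleton_iff.1 ht, ← hY₂def]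
      exact hY₂A
    | algebraMap r =>
      rw [hcompat]
      exact Subalgebra.algebraMap_mem _ _
    | add a b _ _ iha ihb =>
      rw [map_add]
      exact Subalgebra.add_mem _ iha ihb
    | mul a b _ _ iha ihb =>
      rw [map_mul]
      exact Subalgebra.mul_mem _ iha ihb
  have hYint₁ : IsIntegral R₁ Y₁ := ⟨P₁, hP₁, by rwa [← aeval_def]⟩
  have hYint₂ : IsIntegral R₂ Y₂ := ⟨P₂, hP₂, by rwa [← aeval_def]⟩
  haveI hAint₁ : Algebra.IsIntegral R₁ A₁ := by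
    have h0 : Algebra.IsIntegral R₁ (Algebra.adjoin R₁ ({Y₁} : Set L₁)) :=
      Algebra.IsIntegral.adjoin (fun z hz => by rw [Set.mem_singleton_iff.1 hz]; exact hYint₁)
    exact hA₁.symm ▸ h0
  haveI hAint₂ : Algebra.IsIntegral R₂ A₂ := by
    have h0 : Algebra.IsIntegral R₂ (Algebra.adjoin R₂ ({Y₂} : Set L₂)) :=
      Algebra.IsIntegral.adjoin (fun z hz => by rw [Set.mem_singleton_iff.1 hz]; exact hYint₂)
    exact hA₂.symm ▸ h0
  -- the maximal ideals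
  obtain ⟨𝔫₂, h𝔫₂⟩ := Ideal.exists_maximal A₂
  haveI := h𝔫₂
  obtain ⟨𝔫₁, h𝔫₁def⟩ : ∃ I : Ideal A₁,
      I = 𝔫₂.comap (subalgHom (algebraMap L₁ L₂) A₁ A₂ hφA) := ⟨_, rfl⟩
  have hcomap₂ : 𝔫₂.comap (algebraMap R₂ A₂) = IsLocalRing.maximalIdeal R₂ := by
    haveI : (𝔫₂.comap (algebraMap R₂ A₂)).IsMaximal :=
      Ideal.isMaximal_comap_of_isIntegral_of_isMaximal (R := R₂) (S := A₂) 𝔫₂
    exact IsLocalRing.eq_maximalIdeal inferInstance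
  have hlocal12 : ∀ r ∈ IsLocalRing.maximalIdeal R₁,
      algebraMap R₁ R₂ r ∈ IsLocalRing.maximalIdeal R₂ := by
    intro r hr
    rw [← hN₁.sup_eq] at hr
    obtain ⟨a, ha, b, hb, rfl⟩ := Submodule.mem_sup.1 hr
    rw [map_add, ← hN₂.sup_eq]
    exact Ideal.add_mem _ (Ideal.mem_sup_left ((hq₁ a).2 ha)) (Ideal.mem_sup_right ((hq₂ b).2 hb))
  haveI h𝔫₁p : 𝔫₁.IsPrime := by
    rw [h𝔫₁def]
    exact Ideal.comap_isPrime _ _
  have hcomap₁ : 𝔫₁.comap (algebraMap R₁ A₁) = IsLocalRing.maximalIdeal R₁ := by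
    apply le_antisymm
    · exact IsLocalRing.le_maximalIdeal (Ideal.IsPrime.ne_top (Ideal.comap_isPrime _ _))
    · intro r hr
      rw [Ideal.mem_comap, h𝔫₁def, Ideal.mem_comap]
      have e : subalgHom (algebraMap L₁ L₂) A₁ A₂ hφA (algebraMap R₁ A₁ r) =
          algebraMap R₂ A₂ (algebraMap R₁ R₂ r) := Subtype.ext (hcompat r)
      rw [e]
      have := hlocal12 r hr
      rw [← hcomap₂] at this
      exact this
  haveI h𝔫₁ : 𝔫₁.IsMaximal := by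
    have hmax : (𝔫₁.comap (algebraMap R₁ A₁)).IsMaximal := by
      rw [hcomap₁]
      infer_instance
    exact Ideal.isMaximal_of_isIntegral_of_isMaximal_comap (R := R₁) 𝔫₁ hmax
  haveI hl₁ : IsLocalRing (Fermat.Agent.A2.H348.locAt A₁ 𝔫₁) := isLocalRing_locAt A₁ 𝔫₁
  haveI hl₂ : IsLocalRing (Fermat.Agent.A2.H348.locAt A₂ 𝔫₂) := isLocalRing_locAt A₂ 𝔫₂
  obtain ⟨a1, a2, a3, a4, a5, a6, -, -⟩ :=
    nodeRing_locAt_of_eq hinj₁ hk₁ hN₁ Y₁ P₁ hP₁ hP₁Y A₁ hA₁ hP₁' hfrac₁ 𝔫₁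
  obtain ⟨b1, b2, b3, b4, b5, b6, -, -⟩ :=
    nodeRing_locAt_of_eq hinj₂ hk₂ hN₂ Y₂ P₂ hP₂ hP₂Y A₂ hA₂ hP₂' hfrac₂ 𝔫₂
  refine ⟨Fermat.Agent.A2.H348.locAt A₁ 𝔫₁, Fermat.Agent.A2.H348.locAt A₂ 𝔫₂, hl₁, hl₂,
    ⟨a1, a2, a3, a4, a5, a6⟩, ⟨b1, b2, b3, b4, b5, b6⟩, fun z hz => ?_⟩
  refine map_mem_locAt (algebraMap L₁ L₂) A₁ A₂ hφA 𝔫₂ 𝔫₁ (fun a ha => ?_) hz
  intro ha'
  apply ha
  rw [h𝔫₁def, Ideal.mem_comap]
  exact ha'

end Fermat.Agent.Ribet.H939
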